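import Fermat.Agent.S41.Dual.Main
import Fermat.Agent.GAL.Hecke.Degree

/-!
# S41 / Dual / Orth (helper27): the orthogonality statement `OrthC`, hence `DualC`

* `orth_adj`       : `e(α^* x, z) = e(x, α_* z)`;
* `orth_w`         : `w` is an isometry;
* `orth_push_bPull`: `α_* β^* = T_q`;
* `orthC`, `dualC`.
-/

set_option autoImplicit false
set_option linter.unusedSectionVars false
set_option linter.style.haveILetI false

noncomputable section

namespace Fermat.Agent.S41.Dual

open AlgebraicCurve ModularCurve Fermat.Agent.S24 Fermat.Agent.GAL Fermat.Agent.GAL.Hecke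
  Fermat.Agent.S15.H Fermat.Agent.DR.Hecke

attribute [local instance] Fermat.Agent.GAL.Desc.isFF_FF_Kbar

variable (N q : ℕ) [NeZero N] [NeZero q]

/-- the adjunction `e(α^* x, z) = e(x, α_* z)`. -/
theorem orth_adj (m : ℕ) (hm : m ≠ 0) (x : KV Kbar (FN N) m) (z : KV Kbar (FN (N * q)) m) :
    kvPair m hm (aPull N q m x) z = kvPair m hm x (aPush N q m z) := by
  letI := algebraAlong (heckeAlphaBar Kbar N q)
  haveI := isScalarTower_along (heckeAlphaBar Kbar N q)
  haveI : Module.Finite (FN N) (FN (N * q)) := finiteAlong_alpha N q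
  haveI : CharZero (FN N) := charZero_of_injective_algebraMap (algebraMap Kbar (FN N)).injective
  haveI : Algebra.IsSeparable (FN N) (FN (N * q)) := Algebra.IsAlgebraic.isSeparable_of_perfectField
  obtain ⟨u, rfl⟩ := KV.mk_surjective x
  obtain ⟨v, rfl⟩ := KV.mk_surjective z
  rw [aPull_mk, aPush_mk]
  exact kvPair_adj m hm u v _ _

/-- `α_* β^* = T_q`. -/
theorem orth_push_bPull (m : ℕ) (x : KV Kbar (FN N) m) :
    aPush N q m (bPull N q m x) = heckeTtot N m q x := by
  rw [heckeTtot_eq]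
  obtain ⟨u, rfl⟩ := KV.mk_surjective x
  rw [bPull_mk, aPush_mk, heckeT_mk (heckeNormPreserves N q m)]
  rfl

variable {N q} (hq : q.Prime) (hN : ¬ q ∣ N)

/-- the Atkin-Lehner involution as an algebra automorphism. -/
def orthW : FN (N * q) ≃ₐ[Kbar] FN (N * q) :=
  AlgEquiv.ofAlgHom (wHom N q hq hN) (wHom N q hq hN) (wHom_comp_wHom N q hq hN)
    (wHom_comp_wHom N q hq hN)

theorem orthW_smul (m : ℕ) (z : KV Kbar (FN (N * q)) m) :
    SemilinearAut.ofAlgAut (orthW hq hN) • z = wKV N q hq hN m z := by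
  obtain ⟨u, rfl⟩ := KV.mk_surjective z
  rw [KV.semilinear_smul_mk, wKV_mk]
  rfl

/-- `w` is an isometry. -/
theorem orth_w (m : ℕ) (hm : m ≠ 0) (z z' : KV Kbar (FN (N * q)) m) :
    kvPair m hm (wKV N q hq hN m z) (wKV N q hq hN m z') = kvPair m hm z z' := by
  rw [← orthW_smul, ← orthW_smul]
  exact kvPair_smul m hm _ (fun _ => rfl) z z'

/-- `e(z, α^* u) = e(α_* z, u)`. -/
theorem orth_adj' (m : ℕ) (hm : m ≠ 0) (u : KV Kbar (FN N) m) (z : KV Kbar (FN (N * q)) m) :
    kvPair m hm z (aPull N q m u) = kvPair m hm (aPush N q m z) u := by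
  rw [kvPair_swap, orth_adj, ← kvPair_swap]

/-- `e(z, β^* v) = e(α_* w z, v)`. -/
theorem orth_adj_b (m : ℕ) (hm : m ≠ 0) (v : KV Kbar (FN N) m) (z : KV Kbar (FN (N * q)) m) :
    kvPair m hm z (bPull N q m v) = kvPair m hm (aPush N q m (wKV N q hq hN m z)) v := by
  rw [← orth_adj', ← orth_w hq hN m hm z, wKV_bPull]

/-- **The orthogonality statement.** -/
theorem orthC : OrthC := by
  intro p N q' _ _ hp hq' hq'N _ x₀ e he hT
  have hee : e * e = 1 := by rcases he with rfl | rfl <;> norm_num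
  constructor
  · intro u
    rw [orth_adj', map_add, aPush_aPull hq' hq'N, orth_push_bPull, map_zsmul, hT, smul_smul]
    have : (q' + 1) • x₀ + (-e * (e * (q' + 1))) • x₀ = 0 := by
      have h1 : -e * (e * ((q' : ℤ) + 1)) = -((q' : ℤ) + 1) := by
        rw [← mul_assoc, neg_mul, hee]; ring
      rw [h1, neg_smul, ← natCast_zsmul]
      push_cast
      exact add_neg_cancel _
    rw [this, kvPair_zero_left]
  · intro v
    rw [orth_adj_b hq' hq'N, map_add, wKV_aPull, wKV_bPull, map_add, aPush_aPull hq' hq'N, orth_push_bPull,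
      hT]
    have : (e * ((q' : ℤ) + 1)) • x₀ + (q' + 1) • (-e • x₀) = 0 := by
      rw [← natCast_zsmul, smul_smul]
      push_cast
      rw [← add_smul]
      have h1 : e * ((q' : ℤ) + 1) + ((q' : ℤ) + 1) * -e = 0 := by ring
      rw [h1, zero_smul]
    rw [this, kvPair_zero_left]

/-- **Block DUAL.** -/
theorem dualC : DualC := dualC_of orthC

end Fermat.Agent.S41.Dual
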