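import Mathlib

/-!
# S41 / Dual / Abs : the abstract linear algebra of block DUAL (K2 of report 382).  PURE MATHLIB.

`B` a finite abelian group, `U i : B →+ B` a commuting family (`U i = T_i - θ_i`).
* `genKer U`        : the generalised eigenspace `{x | ∀ i, ∃ k, (U i)^[k] x = 0}`;
* `exists_eigen`    : a nonzero stable subgroup of `genKer U` contains a nonzero common kernel vector;
* `fitting_exists`, `fitting_unique` : Fitting's lemma for one endomorphism of a finite group;
* `decomp_finset`   : `B = (⋂_{i ∈ s} gen. kernel of U i) + (sum of the stable ranges)`;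
* `nondeg_genKer`   : a nondegenerate pairing for which the `U i` are self adjoint is nondegenerate on `genKer U`;
* `abs_main`        : the count `#genKer(UA) ^ 2 < #genKer(UB)`.
-/

set_option autoImplicit false

namespace Fermat.Agent.S41.Dual

variable {ι A B C : Type*} [AddCommGroup A] [AddCommGroup B] [CommGroup C]

theorem iterate_eq_zero_of_le (f : B →+ B) {x : B} {k n : ℕ} (h : f^[k] x = 0) (hkn : k ≤ n) :
    f^[n] x = 0 := by
  obtain ⟨m, rfl⟩ := Nat.exists_eq_add_of_le hkn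
  rw [Nat.add_comm, Function.iterate_add_apply, h, iterate_map_zero]

/-- `x` is killed by a power of every `U i`. -/
def genKer (U : ι → B →+ B) : AddSubgroup B where
  carrier := {x | ∀ i, ∃ k : ℕ, (U i)^[k] x = 0}
  zero_mem' := fun _ => ⟨0, rfl⟩
  add_mem' := by
    intro x y hx hy i
    obtain ⟨k, hk⟩ := hx i
    obtain ⟨l, hl⟩ := hy i
    refine ⟨max k l, ?_⟩
    rw [iterate_map_add, iterate_eq_zero_of_le _ hk (le_max_left k l),
      iterate_eq_zero_of_le _ hl (le_max_right k l), add_zero]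
  neg_mem' := by
    intro x hx i
    obtain ⟨k, hk⟩ := hx i
    exact ⟨k, by rw [iterate_map_neg, hk, neg_zero]⟩

theorem mem_genKer {U : ι → B →+ B} {x : B} :
    x ∈ genKer U ↔ ∀ i, ∃ k : ℕ, (U i)^[k] x = 0 := Iff.rfl

theorem mem_genKer_of_eigen {U : ι → B →+ B} {x : B} (h : ∀ i, U i x = 0) : x ∈ genKer U :=
  fun i => ⟨1, h i⟩

/-- commuting maps: `(U i)^[k] (U j x) = U j ((U i)^[k] x)`. -/
theorem iterate_comm (U : ι → B →+ B) (hU : ∀ i j x, U i (U j x) = U j (U i x)) (i j : ι) (k : ℕ)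
    (x : B) : (U i)^[k] (U j x) = U j ((U i)^[k] x) := by
  induction k generalizing x with
  | zero => rfl
  | succ k ih => rw [Function.iterate_succ_apply, Function.iterate_succ_apply, hU i j x, ih]

theorem iterate_iterate_comm (U : ι → B →+ B) (hU : ∀ i j x, U i (U j x) = U j (U i x)) (i j : ι)
    (k l : ℕ) (x : B) : (U i)^[k] ((U j)^[l] x) = (U j)^[l] ((U i)^[k] x) := by
  induction l generalizing x with
  | zero => rfl
  | succ l ih => rw [Function.iterate_succ_apply, Function.iterate_succ_apply, ih,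
      iterate_comm U hU i j k x]

theorem map_mem_genKer (U : ι → B →+ B) (hU : ∀ i j x, U i (U j x) = U j (U i x)) (j : ι) {x : B}
    (hx : x ∈ genKer U) : U j x ∈ genKer U := by
  intro i
  obtain ⟨k, hk⟩ := hx i
  exact ⟨k, by rw [iterate_comm U hU, hk, map_zero]⟩

private theorem exists_eigen_iterate_mem (U : ι → B →+ B) (Z : AddSubgroup B)
    (hst : ∀ j, ∀ z ∈ Z, U j z ∈ Z) (j : ι) {z : B} (hz : z ∈ Z) (n : ℕ) : (U j)^[n] z ∈ Z := by
  induction n with
  | zero => exact hz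
  | succ n ih =>
    rw [Function.iterate_succ_apply']
    exact hst j _ ih

private theorem exists_eigen_finset (U : ι → B →+ B) (hU : ∀ i j x, U i (U j x) = U j (U i x))
    (Z : AddSubgroup B) (hZ : Z ≤ genKer U) (hst : ∀ j, ∀ z ∈ Z, U j z ∈ Z) (hne : Z ≠ ⊥)
    (s : Finset ι) : ∃ z ∈ Z, z ≠ 0 ∧ ∀ i ∈ s, U i z = 0 := by
  classical
  induction s using Finset.induction_on with
  | empty =>
    obtain ⟨⟨z, hz⟩, hz0'⟩ := AddSubgroup.ne_bot_iff_exists_ne_zero.1 hne
    have hz0 : z ≠ 0 := fun h => hz0' (Subtype.ext h)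
    exact ⟨z, hz, hz0, fun i hi => absurd hi (Finset.notMem_empty i)⟩
  | insert j s _ ih =>
    obtain ⟨z, hzZ, hz0, hz⟩ := ih
    have hex : ∃ k : ℕ, (U j)^[k] z = 0 := hZ hzZ j
    have hk0 : Nat.find hex ≠ 0 := by
      intro h0
      have h1 := Nat.find_spec hex
      rw [h0] at h1
      exact hz0 h1
    obtain ⟨m, hm⟩ := Nat.exists_eq_succ_of_ne_zero hk0
    refine ⟨(U j)^[m] z, exists_eigen_iterate_mem U Z hst j hzZ m, ?_, ?_⟩
    · exact Nat.find_min hex (by omega)
    · intro i hi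
      rcases Finset.mem_insert.1 hi with rfl | hi
      · have h1 := Nat.find_spec hex
        rw [hm, Function.iterate_succ_apply'] at h1
        exact h1
      · rw [← iterate_comm U hU j i m z, hz i hi, iterate_map_zero]

/-- **A2.** A nonzero stable subgroup of `genKer U` contains a nonzero common kernel vector.
RECIPE.  For a finite set `s` of indices put `Z_s = {z ∈ Z | ∀ i ∈ s, U i z = 0}`.  (a) `Z_s ≠ 0` by induction on `s`
(`Finset.induction_on`): given `z ≠ 0` in `Z_s` and `j`, take `k = Nat.find` of `(U j)^[k] z = 0`; `k ≠ 0`; `z' = (U j)^[k-1] z ≠ 0`,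
`U j z' = 0`, `z' ∈ Z` (stability), `U i z' = 0` for `i ∈ s` (`iterate_comm`).  (b) `B` is finite: for every `z ∈ B` such that some `U i z ≠ 0`
choose such an `i_z`; `s :=` the (finite) set of all the `i_z`; a nonzero element of `Z_s` is killed by all `U i`. -/
theorem exists_eigen [Finite B] (U : ι → B →+ B) (hU : ∀ i j x, U i (U j x) = U j (U i x))
    (Z : AddSubgroup B) (hZ : Z ≤ genKer U) (hst : ∀ j, ∀ z ∈ Z, U j z ∈ Z) (hne : Z ≠ ⊥) :
    ∃ z ∈ Z, z ≠ 0 ∧ ∀ i, U i z = 0 := by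
  classical
  have := Fintype.ofFinite B
  obtain ⟨z, hzZ, hz0, hz⟩ := exists_eigen_finset U hU Z hZ hst hne
    (Finset.univ.biUnion fun z : B => if h : ∃ i, U i z ≠ 0 then {h.choose} else ∅)
  refine ⟨z, hzZ, hz0, fun i => ?_⟩
  by_contra hi
  have h : ∃ i, U i z ≠ 0 := ⟨i, hi⟩
  refine h.choose_spec (hz _ ?_)
  rw [Finset.mem_biUnion]
  exact ⟨z, Finset.mem_univ _, by rw [dif_pos h]; exact Finset.mem_singleton_self _⟩

theorem fitting_exists_pow_apply (f : B →+ B) (n : ℕ) (x : B) :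
    (f.toIntLinearMap ^ n) x = f^[n] x := by
  rw [Module.End.pow_apply, AddMonoidHom.coe_toIntLinearMap]

theorem fitting_exists_mem_iSup (f : B →+ B) {x : B} :
    x ∈ (⨆ n : ℕ, LinearMap.ker (f.toIntLinearMap ^ n)) ↔ ∃ n : ℕ, f^[n] x = 0 := by
  have h : x ∈ (⨆ n : ℕ, LinearMap.ker (f.toIntLinearMap ^ n)) ↔
      ∃ n : ℕ, x ∈ LinearMap.ker (f.toIntLinearMap ^ n) :=
    Submodule.mem_iSup_of_chain (LinearMap.iterateKer f.toIntLinearMap) x
  rw [h]
  simp only [LinearMap.mem_ker, fitting_exists_pow_apply]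

theorem fitting_exists_mem_iInf (f : B →+ B) {x : B} :
    x ∈ (⨅ n : ℕ, LinearMap.range (f.toIntLinearMap ^ n)) ↔ ∀ n : ℕ, ∃ c : B, f^[n] c = x := by
  simp only [Submodule.mem_iInf, LinearMap.mem_range, fitting_exists_pow_apply]

/-- **A3a.** Fitting (existence).
RECIPE: `f.toIntLinearMap`, `LinearMap.isCompl_iSup_ker_pow_iInf_range_pow` (finite ⟹ Noetherian and Artinian over `ℤ`), `Module.End.pow_apply`/`LinearMap.pow_apply`;
or by hand: the ranges of `f^[n]` decrease, so `range f^[n] = range f^[2 n]` for some `n`; `f^[n] b = f^[2n] c`, `k = b - f^[n] c`, `r = f^[n] c`,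
and `r ∈ range f^[m]` for all `m` because the ranges are stationary from `n` on. -/
theorem fitting_exists [Finite B] (f : B →+ B) (b : B) :
    ∃ k r : B, b = k + r ∧ (∃ n : ℕ, f^[n] k = 0) ∧ ∀ n : ℕ, ∃ c : B, f^[n] c = r := by
  have hc := LinearMap.isCompl_iSup_ker_pow_iInf_range_pow f.toIntLinearMap
  have hb : b ∈ (⨆ n : ℕ, LinearMap.ker (f.toIntLinearMap ^ n)) ⊔
      (⨅ n : ℕ, LinearMap.range (f.toIntLinearMap ^ n)) := by
    rw [hc.sup_eq_top]
    exact Submodule.mem_top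
  obtain ⟨k, hk, r, hr, hkr⟩ := Submodule.mem_sup.1 hb
  exact ⟨k, r, hkr.symm, (fitting_exists_mem_iSup f).1 hk, (fitting_exists_mem_iInf f).1 hr⟩

/-- **A3b.** Fitting (uniqueness). Same recipe (`IsCompl.disjoint`). -/
theorem fitting_unique [Finite B] (f : B →+ B) {k r : B} (h : k + r = 0)
    (hk : ∃ n : ℕ, f^[n] k = 0) (hr : ∀ n : ℕ, ∃ c : B, f^[n] c = r) : k = 0 := by
  have hc := LinearMap.isCompl_iSup_ker_pow_iInf_range_pow f.toIntLinearMap
  have h1 : k ∈ (⨆ n : ℕ, LinearMap.ker (f.toIntLinearMap ^ n)) := (fitting_exists_mem_iSup f).2 hk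
  have h2 : k ∈ (⨅ n : ℕ, LinearMap.range (f.toIntLinearMap ^ n)) := by
    have h3 : k = -r := eq_neg_of_add_eq_zero_left h
    rw [h3]
    exact Submodule.neg_mem _ ((fitting_exists_mem_iInf f).2 hr)
  exact (Submodule.disjoint_def.1 hc.disjoint) k h1 h2

/-- **A4.** RECIPE: `Finset.induction_on s`.  Step `insert j s`: `b = b₀ + r` for `s`; `b₀ = k + r'` by `fitting_exists (U j)`.
For `i ∈ s`, `(U i)^[n] b₀ = 0` gives `(U i)^[n] k + (U i)^[n] r' = 0` where the first term is killed by a power of `U j` and the second one is in all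
the ranges of the `(U j)^[m]` (`iterate_iterate_comm`), so `(U i)^[n] k = 0` by `fitting_unique (U j)`.  New decomposition `b = k + (r' + r)`. -/
theorem decomp_finset [Finite B] (U : ι → B →+ B) (hU : ∀ i j x, U i (U j x) = U j (U i x))
    (s : Finset ι) (b : B) :
    ∃ b₀ r : B, b = b₀ + r ∧ (∀ i ∈ s, ∃ n : ℕ, (U i)^[n] b₀ = 0) ∧
      r ∈ AddSubgroup.closure {r' : B | ∃ i ∈ s, ∀ n : ℕ, ∃ c : B, (U i)^[n] c = r'} := by
  classical
  induction s using Finset.induction_on with
  | empty => exact ⟨b, 0, (add_zero b).symm, by simp, AddSubgroup.zero_mem _⟩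
  | insert j s hj ih =>
    obtain ⟨b₀, r, hb, hb₀, hr⟩ := ih
    obtain ⟨k, r', hk, ⟨n, hn⟩, hr'⟩ := fitting_exists (U j) b₀
    refine ⟨k, r' + r, by rw [hb, hk, add_assoc], ?_, ?_⟩
    · intro i hi
      rcases Finset.mem_insert.1 hi with rfl | hi
      · exact ⟨n, hn⟩
      · obtain ⟨m, hm⟩ := hb₀ i hi
        refine ⟨m, ?_⟩
        apply fitting_unique (U j) (r := (U i)^[m] r')
        · rw [← iterate_map_add, ← hk, hm]
        · exact ⟨n, by rw [iterate_iterate_comm U hU, hn, iterate_map_zero]⟩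
        · intro l
          obtain ⟨c, hc⟩ := hr' l
          exact ⟨(U i)^[m] c, by rw [iterate_iterate_comm U hU, hc]⟩
    · apply AddSubgroup.add_mem
      · exact AddSubgroup.subset_closure ⟨j, Finset.mem_insert_self j s, hr'⟩
      · refine AddSubgroup.closure_mono ?_ hr
        rintro x ⟨i, hi, hx⟩
        exact ⟨i, Finset.mem_insert_of_mem hi, hx⟩

/-- **A4'.** finitely many indices suffice.  RECIPE: classical; for `b ∉ genKer U` choose `i_b` with `∀ k, (U i_b)^[k] b ≠ 0`;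
`s := Finset.univ.image` (after `Fintype.ofFinite B`) of `b ↦ i_b` on the complement (if `ι` is empty everything is trivial). -/
theorem exists_finset_genKer [Finite B] (U : ι → B →+ B) :
    ∃ s : Finset ι, ∀ b : B, (∀ i ∈ s, ∃ n : ℕ, (U i)^[n] b = 0) → b ∈ genKer U := by
  classical
  cases nonempty_fintype B
  by_cases hι : Nonempty ι
  · obtain ⟨i₀⟩ := hι
    have hch : ∀ b : B, ∃ i : ι, b ∉ genKer U → ∀ k, (U i)^[k] b ≠ 0 := by
      intro b
      by_cases hb : b ∈ genKer U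
      · exact ⟨i₀, fun h => absurd hb h⟩
      · rw [mem_genKer] at hb
        push Not at hb
        obtain ⟨i, hi⟩ := hb
        exact ⟨i, fun _ => hi⟩
    choose f hf using hch
    refine ⟨Finset.univ.image f, fun b hb => ?_⟩
    by_contra hb'
    obtain ⟨n, hn⟩ := hb (f b) (Finset.mem_image_of_mem f (Finset.mem_univ b))
    exact hf b hb' n hn
  · exact ⟨∅, fun b _ i => absurd ⟨i⟩ hι⟩

section Pairing

variable (e : B → B → C) (e_add_left : ∀ x y z, e (x + y) z = e x z * e y z)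
  (e_add_right : ∀ x y z, e x (y + z) = e x y * e x z)

include e_add_left in
theorem e_zero_left (z : B) : e 0 z = 1 := by
  have h := e_add_left 0 0 z
  rw [add_zero] at h
  exact (mul_eq_left.mp h.symm)

include e_add_right in
theorem e_zero_right (z : B) : e z 0 = 1 := by
  have h := e_add_right z 0 0
  rw [add_zero] at h
  exact (mul_eq_left.mp h.symm)

theorem e_iterate_adj (f : B →+ B) (hadj : ∀ x y, e (f x) y = e x (f y)) (n : ℕ) (x y : B) :
    e (f^[n] x) y = e x (f^[n] y) := by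
  induction n generalizing x y with
  | zero => rfl
  | succ n ih => rw [Function.iterate_succ_apply', hadj, ih, ← Function.iterate_succ_apply]

/-- **A5.** RECIPE: `s` from `exists_finset_genKer`; for `b : B` write `b = b₀ + r` (`decomp_finset`); `b₀ ∈ genKer U`, so `e w b₀ = 1`;
`e w r = 1` by `AddSubgroup.closure_induction` (generators: `r' = (U i)^[n] c` with `(U i)^[n] w = 0`, `e_iterate_adj`, `e_zero_left`).
So `e w b = 1` for all `b`, `w = 0` by `e_nd`. -/
theorem nondeg_genKer [Finite B] (U : ι → B →+ B) (hU : ∀ i j x, U i (U j x) = U j (U i x))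
    (e_add_left : ∀ x y z, e (x + y) z = e x z * e y z)
    (e_add_right : ∀ x y z, e x (y + z) = e x y * e x z)
    (e_nd : ∀ x, (∀ y, e x y = 1) → x = 0) (e_adj : ∀ i x y, e (U i x) y = e x (U i y))
    {w : B} (hw : w ∈ genKer U) (h : ∀ t ∈ genKer U, e w t = 1) : w = 0 := by
  obtain ⟨s, hs⟩ := exists_finset_genKer U
  apply e_nd
  intro b
  obtain ⟨b₀, r, rfl, hb₀, hr⟩ := decomp_finset U hU s b
  have h1 : e w b₀ = 1 := h b₀ (hs b₀ hb₀)
  have h2 : e w r = 1 := by
    induction hr using AddSubgroup.closure_induction with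
    | mem x hx =>
      obtain ⟨i, -, hi⟩ := hx
      obtain ⟨n, hn⟩ := hw i
      obtain ⟨c, rfl⟩ := hi n
      rw [← e_iterate_adj e (U i) (e_adj i), hn, e_zero_left e e_add_left]
    | zero => exact e_zero_right e e_add_right w
    | add x y _ _ hx hy => rw [e_add_right, hx, hy, one_mul]
    | neg x _ hx =>
      have h3 := e_add_right w x (-x)
      rw [add_neg_cancel, e_zero_right e e_add_right, hx, one_mul] at h3
      exact h3.symm
  rw [e_add_right, h1, h2, one_mul]

end Pairing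

/-- **A6.** `γ = a + b` is injective on `genKer UA × genKer UA`.
RECIPE: apply `exists_eigen` to the group `A × A`, the family `i ↦ (UA i).prodMap (UA i)` and
`Z = {(x, y) | x ∈ genKer UA ∧ y ∈ genKer UA ∧ a x + b y = 0}`. -/
theorem gamma_injective [Finite A] (UA : ι → A →+ A) (UB : ι → B →+ B)
    (hUA : ∀ i j x, UA i (UA j x) = UA j (UA i x))
    (a b : A →+ B) (ha : ∀ i x, a (UA i x) = UB i (a x)) (hb : ∀ i x, b (UA i x) = UB i (b x))
    (hIH : ∀ x y, (∀ i, UA i x = 0) → (∀ i, UA i y = 0) → a x + b y = 0 → x = 0 ∧ y = 0)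
    {x y : A} (hx : x ∈ genKer UA) (hy : y ∈ genKer UA) (h : a x + b y = 0) : x = 0 ∧ y = 0 := by
  classical
  by_contra hne
  let UU : ι → (A × A) →+ (A × A) := fun i => (UA i).prodMap (UA i)
  have hUUit : ∀ (i : ι) (n : ℕ) (z : A × A),
      (UU i)^[n] z = ((UA i)^[n] z.1, (UA i)^[n] z.2) := by
    intro i n
    induction n with
    | zero => intro z; rfl
    | succ n ih => intro z; rw [Function.iterate_succ_apply, ih]; rfl
  let Z : AddSubgroup (A × A) :=
    { carrier := {z | z.1 ∈ genKer UA ∧ z.2 ∈ genKer UA ∧ a z.1 + b z.2 = 0}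
      zero_mem' := ⟨(genKer UA).zero_mem, (genKer UA).zero_mem, by simp⟩
      add_mem' := by
        rintro z w ⟨hz1, hz2, hz3⟩ ⟨hw1, hw2, hw3⟩
        refine ⟨(genKer UA).add_mem hz1 hw1, (genKer UA).add_mem hz2 hw2, ?_⟩
        have e1 : a (z + w).1 + b (z + w).2 = (a z.1 + b z.2) + (a w.1 + b w.2) := by
          rw [Prod.fst_add, Prod.snd_add, map_add, map_add]; abel
        rw [e1, hz3, hw3, add_zero]
      neg_mem' := by
        rintro z ⟨hz1, hz2, hz3⟩
        refine ⟨(genKer UA).neg_mem hz1, (genKer UA).neg_mem hz2, ?_⟩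
        have e1 : a (-z).1 + b (-z).2 = -(a z.1 + b z.2) := by
          rw [Prod.fst_neg, Prod.snd_neg, map_neg, map_neg]; abel
        rw [e1, hz3, neg_zero] }
  have hZ : Z ≤ genKer UU := by
    rintro z ⟨hz1, hz2, -⟩ i
    obtain ⟨k, hk⟩ := hz1 i
    obtain ⟨l, hl⟩ := hz2 i
    refine ⟨max k l, ?_⟩
    rw [hUUit, iterate_eq_zero_of_le _ hk (le_max_left k l),
      iterate_eq_zero_of_le _ hl (le_max_right k l)]
    rfl
  have hst : ∀ j, ∀ z ∈ Z, UU j z ∈ Z := by
    rintro j z ⟨hz1, hz2, hz3⟩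
    refine ⟨map_mem_genKer UA hUA j hz1, map_mem_genKer UA hUA j hz2, ?_⟩
    have e1 : a (UU j z).1 + b (UU j z).2 = UB j (a z.1 + b z.2) := by
      rw [map_add, ← ha, ← hb]; rfl
    rw [e1, hz3, map_zero]
  have hZne : Z ≠ ⊥ := by
    intro hbot
    have hmem : ((x, y) : A × A) ∈ Z := ⟨hx, hy, h⟩
    rw [hbot, AddSubgroup.mem_bot] at hmem
    exact hne ⟨congrArg Prod.fst hmem, congrArg Prod.snd hmem⟩
  have hUU : ∀ i j z, UU i (UU j z) = UU j (UU i z) := by
    intro i j z
    exact Prod.ext (hUA i j z.1) (hUA i j z.2)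
  obtain ⟨z, hzZ, hz0, hzk⟩ := exists_eigen UU hUU Z hZ hst hZne
  obtain ⟨-, -, hz3⟩ := hzZ
  have h1 : ∀ i, UA i z.1 = 0 := fun i => congrArg Prod.fst (hzk i)
  have h2 : ∀ i, UA i z.2 = 0 := fun i => congrArg Prod.snd (hzk i)
  obtain ⟨e1, e2⟩ := hIH z.1 z.2 h1 h2 hz3
  exact hz0 (Prod.ext e1 e2)

theorem map_mem_genKer_of_comm (UA : ι → A →+ A) (UB : ι → B →+ B) (a : A →+ B)
    (ha : ∀ i x, a (UA i x) = UB i (a x)) {x : A} (hx : x ∈ genKer UA) : a x ∈ genKer UB := by
  intro i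
  obtain ⟨k, hk⟩ := hx i
  refine ⟨k, ?_⟩
  have : ∀ (n : ℕ) (z : A), (UB i)^[n] (a z) = a ((UA i)^[n] z) := by
    intro n
    induction n with
    | zero => intro z; rfl
    | succ n ih => intro z; rw [Function.iterate_succ_apply, Function.iterate_succ_apply, ← ha, ih]
  rw [this, hk, map_zero]

/-- **THE COUNT.**
RECIPE: `g : genKer UA × genKer UA → genKer UB`, `(x, y) ↦ a x + b y` (`map_mem_genKer_of_comm`) is injective (`gamma_injective`, it is additive), so
`#genKer UA ^ 2 ≤ #genKer UB` (`Nat.card_le_card_of_injective`, `Nat.card_prod`, `sq`).  If equality held, `g` would be surjective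
(`Function.Injective.bijective_of_nat_card_le` or `Finite.injective_iff_surjective_of_equiv`/`Nat.bijective_iff_injective_and_card`);
then `w = a x₀ + b y₀ ∈ genKer UB` is orthogonal to `genKer UB` (`horth_a`, `horth_b`, `e_add_right`), so `w = 0` (`nondeg_genKer`), so `x₀ = 0` by `hIH`. -/
theorem abs_main [Finite A] [Finite B] (UA : ι → A →+ A) (UB : ι → B →+ B)
    (hUA : ∀ i j x, UA i (UA j x) = UA j (UA i x)) (hUB : ∀ i j x, UB i (UB j x) = UB j (UB i x))
    (a b : A →+ B) (ha : ∀ i x, a (UA i x) = UB i (a x)) (hb : ∀ i x, b (UA i x) = UB i (b x))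
    (e : B → B → C) (e_add_left : ∀ x y z, e (x + y) z = e x z * e y z)
    (e_add_right : ∀ x y z, e x (y + z) = e x y * e x z)
    (e_nd : ∀ x, (∀ y, e x y = 1) → x = 0) (e_adj : ∀ i x y, e (UB i x) y = e x (UB i y))
    (hIH : ∀ x y, (∀ i, UA i x = 0) → (∀ i, UA i y = 0) → a x + b y = 0 → x = 0 ∧ y = 0)
    (x₀ y₀ : A) (hx₀ : x₀ ≠ 0) (h₀ : ∀ i, UA i x₀ = 0) (h₀' : ∀ i, UA i y₀ = 0)
    (horth_a : ∀ u, e (a x₀ + b y₀) (a u) = 1) (horth_b : ∀ v, e (a x₀ + b y₀) (b v) = 1) :
    Nat.card (genKer UA) ^ 2 < Nat.card (genKer UB) := by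
  classical
  let g : genKer UA × genKer UA → genKer UB := fun z =>
    ⟨a z.1 + b z.2, (genKer UB).add_mem (map_mem_genKer_of_comm UA UB a ha z.1.2)
      (map_mem_genKer_of_comm UA UB b hb z.2.2)⟩
  have hg : Function.Injective g := by
    rintro ⟨x, y⟩ ⟨x', y'⟩ hxy
    have h1 : a (x : A) + b (y : A) = a (x' : A) + b (y' : A) := congrArg Subtype.val hxy
    have h2 : a ((x : A) - x') + b ((y : A) - y') = 0 := by
      rw [map_sub, map_sub]
      have h3 : a (x : A) - a (x' : A) + (b (y : A) - b (y' : A)) =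
          (a (x : A) + b (y : A)) - (a (x' : A) + b (y' : A)) := by abel
      rw [h3, h1, sub_self]
    obtain ⟨e1, e2⟩ := gamma_injective UA UB hUA a b ha hb hIH
      ((genKer UA).sub_mem x.2 x'.2) ((genKer UA).sub_mem y.2 y'.2) h2
    exact Prod.ext (Subtype.ext (sub_eq_zero.1 e1)) (Subtype.ext (sub_eq_zero.1 e2))
  have hle : Nat.card (genKer UA) ^ 2 ≤ Nat.card (genKer UB) := by
    have h1 := Nat.card_le_card_of_injective g hg
    rwa [Nat.card_prod, ← sq] at h1
  refine lt_of_le_of_ne hle fun heq => ?_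
  have hbij : Function.Bijective g := by
    rw [Nat.bijective_iff_injective_and_card]
    exact ⟨hg, by rw [Nat.card_prod, ← sq, heq]⟩
  have hw : a x₀ + b y₀ ∈ genKer UB :=
    (genKer UB).add_mem (map_mem_genKer_of_comm UA UB a ha (mem_genKer_of_eigen h₀))
      (map_mem_genKer_of_comm UA UB b hb (mem_genKer_of_eigen h₀'))
  have hw0 : a x₀ + b y₀ = 0 := by
    refine nondeg_genKer e UB hUB e_add_left e_add_right e_nd e_adj hw fun t ht => ?_
    obtain ⟨⟨u, v⟩, huv⟩ := hbij.2 ⟨t, ht⟩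
    have h1 : a (u : A) + b (v : A) = t := congrArg Subtype.val huv
    rw [← h1, e_add_right, horth_a, horth_b, one_mul]
  exact hx₀ (hIH x₀ y₀ h₀ h₀' hw0).1

end Fermat.Agent.S41.Dual
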