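import Fermat.Agent.S15.H.Conc1.Dict
import Fermat.Agent.S15.P.Abs
import Fermat.Agent.S19.ND.Main
import Fermat.Agent.S19.DIV.Export

/-!
# S41 / Dual / Pair : the Weil pairing on the Kummer model `KV K F m`, and its adjunction formula.

`K` algebraically closed of characteristic `0`, `F`, `F'` function fields over `K` (`IsFF`).
* `kvPair m hm x y = weil m (kvPic x) (kvPic y)`;  bimultiplicative, nondegenerate for `m` prime;
* `weil_adj`   : `e(π^* x, y') = e(x, π_* y')` on `Pic⁰`;
* `kvPair_adj` : the same on `KV` (`π^* = KV.map algebraMap`, `π_* = KV.map norm`);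
* `kvPair_aut` : invariance under a `K`-automorphism.
-/

set_option autoImplicit false
set_option linter.unusedSectionVars false

noncomputable section

namespace Fermat.Agent.S41.Dual

open AlgebraicCurve Fermat.Agent.Lib.RR Fermat.Agent.GAL Fermat.Agent.S19.Weil Fermat.Agent.S15.H

section One

universe u v

variable {K : Type u} {F : Type v} [Field K] [IsAlgClosed K] [CharZero K] [Field F] [Algebra K F]
  [IsFF K F]

/-- The Weil pairing on the Kummer model. -/
def kvPair (m : ℕ) (hm : m ≠ 0) (x y : KV K F m) : Kˣ :=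
  weil m (kvPic (K := K) (F := F) m hm x) (kvPic (K := K) (F := F) m hm y)

theorem kvPic_mem_torsion (m : ℕ) (hm : m ≠ 0) (x : KV K F m) :
    kvPic (K := K) (F := F) m hm x ∈ Pic0.torsion K F m := by
  rw [Pic0.mem_torsion, natCast_zsmul]
  exact nsmul_kvPic m hm x

theorem kvPair_add_left (m : ℕ) (hm : m ≠ 0) (x y z : KV K F m) :
    kvPair m hm (x + y) z = kvPair m hm x z * kvPair m hm y z := by
  unfold kvPair
  rw [map_add]
  exact weil_add_left (kvPic_mem_torsion m hm x) (kvPic_mem_torsion m hm y)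
    (kvPic_mem_torsion m hm z)

theorem kvPair_add_right (m : ℕ) (hm : m ≠ 0) (x y z : KV K F m) :
    kvPair m hm x (y + z) = kvPair m hm x y * kvPair m hm x z := by
  unfold kvPair
  rw [map_add]
  exact weil_add_right (kvPic_mem_torsion m hm x) (kvPic_mem_torsion m hm y)
    (kvPic_mem_torsion m hm z)

theorem kvPair_swap (m : ℕ) (hm : m ≠ 0) (x y : KV K F m) :
    kvPair m hm y x = (kvPair m hm x y)⁻¹ := weil_swap m _ _

/-- **P1.** nondegeneracy.  RECIPE: `S19.ND.weil_separates K F S19.DIV.divStatement ℓ hℓ 1` (with `pow_one`) applied to `kvPic x` and `0`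
(`weil_zero_left`); every `y ∈ Pic0.torsion K F ℓ` is `kvPic y'` (`exists_kvPic_eq`, `Pic0.mem_torsion`, `natCast_zsmul`); then `kvPic_injective`.
Model: `S15.H.ee_nondeg` in `S15/H/Conc2.lean`. -/
theorem kvPair_nondeg (ℓ : ℕ) (hℓ : ℓ.Prime) (x : KV K F ℓ)
    (h : ∀ y : KV K F ℓ, kvPair ℓ hℓ.ne_zero x y = 1) : x = 0 := by
  apply kvPic_injective (K := K) (F := F) ℓ hℓ.ne_zero
  rw [map_zero]
  have hx : kvPic (K := K) (F := F) ℓ hℓ.ne_zero x ∈ Pic0.torsion K F (ℓ ^ 1) := by
    rw [pow_one]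
    exact kvPic_mem_torsion ℓ hℓ.ne_zero x
  refine Fermat.Agent.S19.ND.weil_separates K F Fermat.Agent.S19.DIV.divStatement ℓ hℓ 1 hx
    (zero_mem _) fun y hy => ?_
  rw [weil_zero_left]
  rw [pow_one] at hy ⊢
  rw [Pic0.mem_torsion, natCast_zsmul] at hy
  obtain ⟨y', rfl⟩ := exists_kvPic_eq (K := K) (F := F) ℓ hℓ.ne_zero y hy
  exact h y'

/-- **P2.** invariance under a semilinear automorphism which is `K`-linear.
RECIPE: `kvPic_smul`, `S19.Weil.weil_smul` (end of `S19/Weil/Pairing.lean`), `hg`; `Units.ext`. -/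
theorem kvPair_smul (m : ℕ) (hm : m ≠ 0) (g : SemilinearAut K F)
    (hg : ∀ c : K, SemilinearAut.baseAut g c = c) (x y : KV K F m) :
    kvPair m hm (g • x) (g • y) = kvPair m hm x y := by
  unfold kvPair
  rw [kvPic_smul, kvPic_smul, weil_smul]
  exact Units.ext (hg _)

end One

section Two

variable {K F F' : Type*} [Field K] [IsAlgClosed K] [CharZero K] [Field F] [Field F']
  [Algebra K F] [Algebra K F'] [Algebra F F'] [IsScalarTower K F F'] [FiniteDimensional F F']
  [Algebra.IsSeparable F F'] [IsFF K F] [IsFF K F']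

/-- **P3.** `(π_* E', N g')` represents `π_* y'`.
RECIPE: as `S15.P.isRep_pullback`; `S19.Lvl.pushHom_mk`, `Pic0.coe_pushforwardDegZeroHom`, `pushforward_eq_mapRestrict` (S19/Weil/NormOrd),
`div (N g') = π_* (div g')` (look in `S19/Weil/NormOrd.lean`: `divOf_norm...`/`pushforwardNormFormula`), `map_nsmul`; `Algebra.norm_ne_zero_iff`. -/
theorem isRep_push {m : ℕ} {y' : Pic0 K F'} {E' : Divisor K F'} {g' : F'} (h : IsRep m y' E' g') :
    IsRep m (Fermat.Agent.S19.Lvl.pushHom K F F' y') (Divisor.mapRestrict F E')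
      (Algebra.norm F g') := by
  obtain ⟨hE, rfl, hg, hdiv⟩ := h
  have hmem : Divisor.mapRestrict F E' ∈ Divisor.degZero (K := K) (F := F) := by
    rw [← pushforward_eq_mapRestrict]
    exact Divisor.pushforward_mem_degZero hE
  refine ⟨hmem, ?_, Algebra.norm_ne_zero_iff.2 hg, ?_⟩
  · rw [Fermat.Agent.S19.Lvl.pushHom_mk]
    congr 1
    apply Subtype.ext
    rw [Pic0.coe_pushforwardDegZeroHom, pushforward_eq_mapRestrict]
  · rw [divOf_norm hg, hdiv, map_nsmul]

/-- **P4. ADJUNCTION** `e_m(π^* x, y') = e_m(x, π_* y')`.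
RECIPE: `(E', g')` a representative of `y'` (`exists_isRep hy' ∅`); `(D, f)` a representative of `x` avoiding the finite set
`S = E'.support.image (·.restrict F)` (`exists_isRep hx S`).  Then `DisjD (pullback D) E'` (`Divisor.pullback_apply`) and `DisjD D (mapRestrict E')`
(if `(mapRestrict E') v ≠ 0` then `v ∈ S`: `Divisor.mapRestrict` is `Finsupp.mapDomain`-like, use `Finsupp.induction_linear` or the support lemma).
`weil_eq (S15.P.isRep_pullback hD) hE' _`, `weil_eq hD (isRep_push hE') _`, `evD_algebraMap_eq`, `evD_pullback` (its hypothesis `Disj g' (pullback D)` is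
`IsRep.disj hE' (DisjD.symm _)`). -/
theorem weil_adj {m : ℕ} {x : Pic0 K F} {y' : Pic0 K F'} (hx : x ∈ Pic0.torsion K F m)
    (hy' : y' ∈ Pic0.torsion K F' m) :
    weil m (Pic0.pullbackHom F' x) y' = weil m x (Fermat.Agent.S19.Lvl.pushHom K F F' y') := by
  classical
  obtain ⟨E', g', hE', -⟩ := exists_isRep hy' ∅
  obtain ⟨D, f, hD, hDS⟩ := exists_isRep hx (E'.support.image (fun w => w.restrict F))
  have hd1 : DisjD (Divisor.pullback F' D) E' := by
    intro w
    by_cases hw : E' w = 0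
    · exact Or.inr hw
    · left
      rw [Divisor.pullback_apply,
        hDS _ (Finset.mem_image.2 ⟨w, Finsupp.mem_support_iff.2 hw, rfl⟩), mul_zero]
  have hd2 : DisjD D (Divisor.mapRestrict F E') := by
    intro v
    by_cases hv : v ∈ E'.support.image (fun w => w.restrict F)
    · exact Or.inl (hDS v hv)
    · right
      rw [normOrd_mapRestrict_apply]
      refine Finset.sum_eq_zero fun w hw => ?_
      by_contra hne
      exact hv (Finset.mem_image.2 ⟨w, Finsupp.mem_support_iff.2 hne, Place.mem_fiber.1 hw⟩)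
  rw [weil_eq (Fermat.Agent.S15.P.isRep_pullback (F' := F') hD) hE' hd1,
    weil_eq hD (isRep_push hE') hd2, evD_algebraMap_eq, evD_pullback (hE'.disj hd1.symm)]

/-- **P5.** `kvPic` and `π^*`.  RECIPE: `kvPic_mk`, `Pic0.pullbackHom_mk`; the divisors agree: `m • (both sides) = div (algebraMap u) = pullback (div u)`
(`divOf_algebraMap_eq_pullback`, `smul_divM`), and `Divisor K F'` is torsion free (`Finsupp.ext`, `mul_left_cancel₀`);
or pointwise: `divM_apply`, `Divisor.pullback_apply`, `Place.ord_restrict`, `Int.mul_ediv_assoc`. -/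
theorem kvPic_pull (m : ℕ) (hm : m ≠ 0) (u : kummerUnits K F m)
    (hu : Units.map (algebraMap F F' : F →* F') (u : Fˣ) ∈ kummerUnits K F' m) :
    kvPic (K := K) (F := F') m hm (KV.mk ⟨Units.map (algebraMap F F' : F →* F') (u : Fˣ), hu⟩)
      = Pic0.pullbackHom F' (kvPic (K := K) (F := F) m hm (KV.mk u)) := by
  rw [kvPic_mk, kvPic_mk, Pic0.pullbackHom_mk]
  congr 1
  apply Subtype.ext
  rw [Pic0.coe_pullbackDegZeroHom]
  show divM (K := K) m (algebraMap F F' ((u : Fˣ) : F))
    = Divisor.pullback F' (divM (K := K) m ((u : Fˣ) : F))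
  have hm' : (m : ℤ) ≠ 0 := by exact_mod_cast hm
  have h1 : (m : ℤ) • divM (K := K) m (algebraMap F F' ((u : Fˣ) : F))
      = (m : ℤ) • Divisor.pullback F' (divM (K := K) m ((u : Fˣ) : F)) := by
    rw [smul_divM m (algebraMap F F' ((u : Fˣ) : F)) hu, ← map_zsmul, smul_divM m _ u.2,
      divOf_algebraMap_eq_pullback]
  ext w
  have h2 := DFunLike.congr_fun h1 w
  simp only [Finsupp.smul_apply, smul_eq_mul] at h2
  exact mul_left_cancel₀ hm' h2

/-- **P6.** `kvPic` and `π_*`.  RECIPE: as P5 with `div (N u') = π_* (div u')`. -/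
theorem kvPic_push (m : ℕ) (hm : m ≠ 0) (u' : kummerUnits K F' m)
    (hu : Units.map (Algebra.norm F : F' →* F) (u' : F'ˣ) ∈ kummerUnits K F m) :
    kvPic (K := K) (F := F) m hm (KV.mk ⟨Units.map (Algebra.norm F : F' →* F) (u' : F'ˣ), hu⟩)
      = Fermat.Agent.S19.Lvl.pushHom K F F' (kvPic (K := K) (F := F') m hm (KV.mk u')) := by
  rw [kvPic_mk, kvPic_mk, Fermat.Agent.S19.Lvl.pushHom_mk]
  congr 1
  apply Subtype.ext
  rw [Pic0.coe_pushforwardDegZeroHom, pushforward_eq_mapRestrict]
  show divM (K := K) m (Algebra.norm F ((u' : F'ˣ) : F'))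
    = Divisor.mapRestrict F (divM (K := K) m ((u' : F'ˣ) : F'))
  have hm' : (m : ℤ) ≠ 0 := by exact_mod_cast hm
  have h1 : (m : ℤ) • divM (K := K) m (Algebra.norm F ((u' : F'ˣ) : F'))
      = (m : ℤ) • Divisor.mapRestrict F (divM (K := K) m ((u' : F'ˣ) : F')) := by
    rw [smul_divM m (Algebra.norm F ((u' : F'ˣ) : F')) hu, ← map_zsmul, smul_divM m _ u'.2,
      divOf_norm (Units.ne_zero _)]
  ext w
  have h2 := DFunLike.congr_fun h1 w
  simp only [Finsupp.smul_apply, smul_eq_mul] at h2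
  exact mul_left_cancel₀ hm' h2

/-- **ADJUNCTION on the Kummer model.** -/
theorem kvPair_adj (m : ℕ) (hm : m ≠ 0) (u : kummerUnits K F m) (u' : kummerUnits K F' m)
    (hu : Units.map (algebraMap F F' : F →* F') (u : Fˣ) ∈ kummerUnits K F' m)
    (hu' : Units.map (Algebra.norm F : F' →* F) (u' : F'ˣ) ∈ kummerUnits K F m) :
    kvPair m hm (KV.mk ⟨Units.map (algebraMap F F' : F →* F') (u : Fˣ), hu⟩) (KV.mk u')
      = kvPair m hm (KV.mk u) (KV.mk ⟨Units.map (Algebra.norm F : F' →* F) (u' : F'ˣ), hu'⟩) := by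
  unfold kvPair
  rw [kvPic_pull m hm u hu, kvPic_push m hm u' hu']
  exact weil_adj (kvPic_mem_torsion m hm _) (kvPic_mem_torsion m hm _)

end Two

end Fermat.Agent.S41.Dual
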