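import Fermat.Agent.S41.Defs
import Fermat.Agent.S41.Dual.Pair
import Fermat.Agent.S15.H.Conc1.Tors
import Fermat.Agent.S15.H.Conc2
import Fermat.Agent.S15.H.Quad
import Fermat.Agent.DR.Hecke.Galois
import Fermat.Agent.S13.Minkowski
import Fermat.Agent.Lib.Frobenius

/-!
# S41 / Dual / Frob (helper27): the Hecke operators `T_ℓ` (`ℓ ∤ M p`) on `V(M) = KV Kbar (FN M) p`

* `finite_KV`          : `V(M)` is finite;
* `heckeTtot_comm`     : the `T_ℓ` commute;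
* `heckeTtot_eq_frob`  : `T_ℓ = Frob_ℓ + ℓ Frob_ℓ⁻¹`;
* `kvPair_gal`         : Galois equivariance of the Weil pairing;
* `heckeTtot_selfadj`  : `T_ℓ` is self adjoint for the Weil pairing;
* `aPull_heckeTtot`, `bPull_heckeTtot` : the degeneracy maps commute with `T_ℓ`.
-/

set_option autoImplicit false
set_option linter.unusedSectionVars false
set_option linter.style.haveILetI false

noncomputable section

namespace Fermat.Agent.S41.Dual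

open AlgebraicCurve ModularCurve Fermat.Agent.S24 Fermat.Agent.GAL Fermat.Agent.GAL.Hecke
  Fermat.Agent.Lib.RR Fermat.Agent.S19.Weil Fermat.Agent.S15.H

attribute [local instance] Fermat.Agent.GAL.Desc.isFF_FF_Kbar

section General

variable {K F : Type*} [Field K] [IsAlgClosed K] [CharZero K] [Field F] [Algebra K F] [Lib.RR.IsFF K F]

theorem kvPair_zero_left (m : ℕ) (hm : m ≠ 0) (y : KV K F m) : kvPair m hm 0 y = 1 := by
  unfold kvPair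
  rw [map_zero, weil_zero_left]

theorem kvPair_zero_right (m : ℕ) (hm : m ≠ 0) (x : KV K F m) : kvPair m hm x 0 = 1 := by
  unfold kvPair
  rw [map_zero, weil_zero_right]

theorem kvPair_nsmul_left (m : ℕ) (hm : m ≠ 0) (n : ℕ) (x y : KV K F m) :
    kvPair m hm (n • x) y = kvPair m hm x y ^ n := by
  induction n with
  | zero => rw [zero_smul, pow_zero, kvPair_zero_left]
  | succ n ih => rw [succ_nsmul, kvPair_add_left, ih, pow_succ]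

theorem kvPair_nsmul_right (m : ℕ) (hm : m ≠ 0) (n : ℕ) (x y : KV K F m) :
    kvPair m hm x (n • y) = kvPair m hm x y ^ n := by
  induction n with
  | zero => rw [zero_smul, pow_zero, kvPair_zero_right]
  | succ n ih => rw [succ_nsmul, kvPair_add_right, ih, pow_succ]

theorem kvPair_neg_left (m : ℕ) (hm : m ≠ 0) (x y : KV K F m) :
    kvPair m hm (-x) y = (kvPair m hm x y)⁻¹ := by
  have h := kvPair_add_left m hm (-x) x y
  rw [neg_add_cancel, kvPair_zero_left] at h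
  exact eq_inv_of_mul_eq_one_left h.symm

theorem kvPair_neg_right (m : ℕ) (hm : m ≠ 0) (x y : KV K F m) :
    kvPair m hm x (-y) = (kvPair m hm x y)⁻¹ := by
  have h := kvPair_add_right m hm x (-y) y
  rw [neg_add_cancel, kvPair_zero_right] at h
  exact eq_inv_of_mul_eq_one_left h.symm

theorem kvPair_zsmul_left (m : ℕ) (hm : m ≠ 0) (n : ℤ) (x y : KV K F m) :
    kvPair m hm (n • x) y = kvPair m hm x y ^ n := by
  obtain ⟨k, rfl | rfl⟩ := n.eq_nat_or_neg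
  · rw [natCast_zsmul, zpow_natCast, kvPair_nsmul_left]
  · rw [neg_smul, natCast_zsmul, kvPair_neg_left, kvPair_nsmul_left, zpow_neg, zpow_natCast]

theorem kvPair_zsmul_right (m : ℕ) (hm : m ≠ 0) (n : ℤ) (x y : KV K F m) :
    kvPair m hm x (n • y) = kvPair m hm x y ^ n := by
  obtain ⟨k, rfl | rfl⟩ := n.eq_nat_or_neg
  · rw [natCast_zsmul, zpow_natCast, kvPair_nsmul_right]
  · rw [neg_smul, natCast_zsmul, kvPair_neg_right, kvPair_nsmul_right, zpow_neg, zpow_natCast]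

theorem kvPair_pow (m : ℕ) (hm : m ≠ 0) (x y : KV K F m) : kvPair m hm x y ^ m = 1 :=
  weil_pow _ _ _

/-- equivariance under all semilinear automorphisms. -/
theorem kvPair_semilinear (m : ℕ) (hm : m ≠ 0) (g : SemilinearAut K F) (x y : KV K F m) :
    kvPair m hm (g • x) (g • y)
      = Units.map (SemilinearAut.baseAut g : K →* K) (kvPair m hm x y) := by
  unfold kvPair
  rw [kvPic_smul, kvPic_smul, weil_smul]

end General

variable (M : ℕ) [NeZero M]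

/-- `V(M)` is finite. -/
theorem finite_KV (m : ℕ) (hm : m ≠ 0) : Finite (KV Kbar (FN M) m) := by
  obtain ⟨D⟩ := Fermat.Agent.GAL.Tors.nonempty_torsDatum' M
  haveI : NeZero m := ⟨hm⟩
  exact Finite.of_equiv _ (D.e m).toEquiv

/-- the `T_ℓ`, `ℓ ∤ M`, commute. -/
theorem heckeTtot_comm (m : ℕ) (hm : m ≠ 0) {ℓ ℓ' : ℕ} (hℓ : ℓ.Prime) (hℓ' : ℓ'.Prime)
    (h : ¬ ℓ ∣ M) (h' : ¬ ℓ' ∣ M) (x : KV Kbar (FN M) m) :
    heckeTtot M m ℓ (heckeTtot M m ℓ' x) = heckeTtot M m ℓ' (heckeTtot M m ℓ x) := by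
  obtain ⟨D⟩ := Fermat.Agent.GAL.Tors.nonempty_torsDatum' M
  haveI : NeZero m := ⟨hm⟩
  haveI : NeZero ℓ := ⟨hℓ.ne_zero⟩
  haveI : NeZero ℓ' := ⟨hℓ'.ne_zero⟩
  rw [heckeTtot_eq, heckeTtot_eq]
  obtain ⟨v, rfl⟩ := (D.e m).surjective x
  rw [← D.e_T m ℓ' hℓ' h', ← D.e_T m ℓ hℓ h, ← D.e_T m ℓ hℓ h, ← D.e_T m ℓ' hℓ' h',
    Matrix.mulVec_mulVec, Matrix.mulVec_mulVec, ← Matrix.map_mul, ← Matrix.map_mul, D.T_comm]

/-- a Frobenius element at `ℓ`. -/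
theorem exists_frob {ℓ : ℕ} (hℓ : ℓ.Prime) :
    ∃ (A : ValuationSubring Kbar) (σ : Kbar ≃ₐ[ℚ] Kbar), A.LiesOverPrime ℓ ∧ A.IsFrobeniusAt σ ℓ := by
  obtain ⟨A, hA⟩ := Fermat.Agent.S13.exists_liesOverPrime_Qbar hℓ
  haveI : IsGalois ℚ (AlgebraicClosure ℚ) := Fermat.Agent.Lib.Frobenius.isGalois_algebraicClosure _
  obtain ⟨σ, hσ⟩ := Fermat.Agent.Lib.Frobenius.exists_isFrobeniusAt A hℓ hA
  exact ⟨A, σ, hA, hσ⟩

/-- `T_ℓ = Frob_ℓ + ℓ Frob_ℓ⁻¹` on `V(M)`, `ℓ ∤ M m`. -/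
theorem heckeTtot_eq_frob (m : ℕ) (hm : m ≠ 0) {ℓ : ℕ} (hℓ : ℓ.Prime) (hℓM : ¬ ℓ ∣ M * m)
    {A : ValuationSubring Kbar} (hA : A.LiesOverPrime ℓ) {σ : Kbar ≃ₐ[ℚ] Kbar}
    (hσ : A.IsFrobeniusAt σ ℓ) (x : KV Kbar (FN M) m) :
    heckeTtot M m ℓ x = σ • x + ℓ • σ⁻¹ • x := by
  haveI : NeZero ℓ := ⟨hℓ.ne_zero⟩
  rw [heckeTtot_eq]
  apply kvJ_injective M m hm
  rw [kvJ_heckeT, map_add, map_nsmul, kvJ_smul, kvJ_smul]
  exact T_eq_frob M m hm ⟨ℓ, hℓ⟩ hℓM A hA σ hσ _ (nsmul_kvJ M m hm x)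

/-- Galois equivariance of the Weil pairing. -/
theorem kvPair_gal (m : ℕ) (hm : m ≠ 0) (σ : Kbar ≃ₐ[ℚ] Kbar) (x y : KV Kbar (FN M) m) :
    ((kvPair m hm (σ • x) (σ • y) : Kbarˣ) : Kbar) = σ ((kvPair m hm x y : Kbarˣ) : Kbar) := by
  have h := ee_gal (N := M) (n := m) σ (kvJ M m hm x) (kvJ M m hm y)
  rw [← kvJ_smul, ← kvJ_smul] at h
  exact h

/-- a Frobenius at `ℓ ≠ p` raises the values of the pairing to the power `ℓ`. -/
theorem kvPair_frob {p : ℕ} (hp : p.Prime) {ℓ : ℕ} (hℓ : ℓ.Prime) (hℓp : ℓ ≠ p)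
    {A : ValuationSubring Kbar} (hA : A.LiesOverPrime ℓ) {σ : Kbar ≃ₐ[ℚ] Kbar}
    (hσ : A.IsFrobeniusAt σ ℓ) (x y : KV Kbar (FN M) p) :
    kvPair p hp.ne_zero (σ • x) (σ • y) = kvPair p hp.ne_zero x y ^ ℓ := by
  apply Units.ext
  rw [kvPair_gal, Units.val_pow_eq_pow_val]
  refine actsMu_frobenius hp hℓ hℓp hA hσ _ ?_
  rw [← Units.val_pow_eq_pow_val, kvPair_pow, Units.val_one]

/-- **`T_ℓ` is self adjoint.** -/
theorem heckeTtot_selfadj {p : ℕ} (hp : p.Prime) {ℓ : ℕ} (hℓ : ℓ.Prime) (hℓM : ¬ ℓ ∣ M)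
    (hℓp : ℓ ≠ p) (x y : KV Kbar (FN M) p) :
    kvPair p hp.ne_zero (heckeTtot M p ℓ x) y = kvPair p hp.ne_zero x (heckeTtot M p ℓ y) := by
  obtain ⟨A, σ, hA, hσ⟩ := exists_frob hℓ
  have hℓMp : ¬ ℓ ∣ M * p := fun h => (hℓ.dvd_mul.1 h).elim hℓM
    fun h => hℓp ((Nat.prime_dvd_prime_iff_eq hℓ hp).1 h)
  rw [heckeTtot_eq_frob M p hp.ne_zero hℓ hℓMp hA hσ, heckeTtot_eq_frob M p hp.ne_zero hℓ hℓMp hA hσ,
    kvPair_add_left, kvPair_add_right, kvPair_nsmul_left, kvPair_nsmul_right]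
  have h1 : kvPair p hp.ne_zero (σ • x) y = kvPair p hp.ne_zero x (σ⁻¹ • y) ^ ℓ := by
    rw [← kvPair_frob M hp hℓ hℓp hA hσ, smul_inv_smul]
  have h2 : kvPair p hp.ne_zero (σ⁻¹ • x) y ^ ℓ = kvPair p hp.ne_zero x (σ • y) := by
    rw [← kvPair_frob M hp hℓ hℓp hA hσ, smul_inv_smul]
  rw [h1, h2, mul_comm]

variable (q : ℕ) [NeZero q]

/-- `α^*` commutes with `T_ℓ`, `ℓ ∤ M q m`. -/
theorem aPull_heckeTtot (m : ℕ) (hm : m ≠ 0) {ℓ : ℕ} (hℓ : ℓ.Prime) (hℓM : ¬ ℓ ∣ M * q * m)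
    (x : KV Kbar (FN M) m) :
    DR.Hecke.aPull M q m (heckeTtot M m ℓ x) = heckeTtot (M * q) m ℓ (DR.Hecke.aPull M q m x) := by
  obtain ⟨A, σ, hA, hσ⟩ := exists_frob hℓ
  have h1 : ¬ ℓ ∣ M * m := fun h => hℓM (h.trans ⟨q, by ring⟩)
  rw [heckeTtot_eq_frob M m hm hℓ h1 hA hσ, heckeTtot_eq_frob (M * q) m hm hℓ hℓM hA hσ,
    map_add, map_nsmul, DR.Hecke.aPull_smul, DR.Hecke.aPull_smul]

/-- `β^*` commutes with `T_ℓ`, `ℓ ∤ M q m`. -/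
theorem bPull_heckeTtot (m : ℕ) (hm : m ≠ 0) {ℓ : ℕ} (hℓ : ℓ.Prime) (hℓM : ¬ ℓ ∣ M * q * m)
    (x : KV Kbar (FN M) m) :
    DR.Hecke.bPull M q m (heckeTtot M m ℓ x) = heckeTtot (M * q) m ℓ (DR.Hecke.bPull M q m x) := by
  obtain ⟨A, σ, hA, hσ⟩ := exists_frob hℓ
  have h1 : ¬ ℓ ∣ M * m := fun h => hℓM (h.trans ⟨q, by ring⟩)
  rw [heckeTtot_eq_frob M m hm hℓ h1 hA hσ, heckeTtot_eq_frob (M * q) m hm hℓ hℓM hA hσ,
    map_add, map_nsmul, DR.Hecke.bPull_smul, DR.Hecke.bPull_smul]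

end Fermat.Agent.S41.Dual
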