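import Fermat.Agent.S41.Contracts
import Fermat.Agent.S41.Dual.Abs
import Fermat.Agent.S41.Dual.Frob

/-!
# S41 / Dual / Main (helper27): `EigenIn → Ihara → Count`, from `abs_main` and the orthogonality statement `OrthC`

* `UU W M p ℓ = T_ℓ - a_ℓ(E)` on `V(M)`;
* `card_GEig` : `GEig` is `genKer` of the family `UU`;
* `OrthC`     : `z = α^* x₀ - e β^* x₀` is orthogonal to the images of `α^*` and `β^*` (block `Dual/Conc.lean`);
* `dualC_of`  : `OrthC → DualC`.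
-/

set_option autoImplicit false
set_option linter.unusedSectionVars false
set_option linter.style.haveILetI false

noncomputable section

namespace Fermat.Agent.S41.Dual

open AlgebraicCurve ModularCurve Fermat.Agent.S24 Fermat.Agent.GAL Fermat.Agent.GAL.Hecke
  Fermat.Agent.S15.H

attribute [local instance] Fermat.Agent.GAL.Desc.isFF_FF_Kbar

/-- `T_ℓ - a_ℓ(E)` on `V(M)`. -/
def UU (W : WeierstrassCurve ℤ) (M p : ℕ) [NeZero M] (ℓ : ℕ) :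
    KV Kbar (FN M) p →+ KV Kbar (FN M) p :=
  heckeTtot M p ℓ - W.apOfModel ℓ • AddMonoidHom.id _

theorem UU_apply (W : WeierstrassCurve ℤ) (M p : ℕ) [NeZero M] (ℓ : ℕ) (y : KV Kbar (FN M) p) :
    UU W M p ℓ y = heckeTtot M p ℓ y - W.apOfModel ℓ • y := rfl

theorem UU_eq_zero_iff (W : WeierstrassCurve ℤ) (M p : ℕ) [NeZero M] (ℓ : ℕ)
    (y : KV Kbar (FN M) p) : UU W M p ℓ y = 0 ↔ heckeTtot M p ℓ y = W.apOfModel ℓ • y := by
  rw [UU_apply, sub_eq_zero]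

theorem mem_GEig_iff (W : WeierstrassCurve ℤ) (M L p : ℕ) [NeZero M] (x : KV Kbar (FN M) p) :
    x ∈ GEig W M L p ↔ x ∈ genKer (fun i : {ℓ // Pr W L p ℓ} => UU W M p i) := by
  constructor
  · intro h i
    exact h i.1 i.2
  · intro h ℓ hℓ
    exact h ⟨ℓ, hℓ⟩

theorem card_GEig (W : WeierstrassCurve ℤ) (M L p : ℕ) [NeZero M] :
    Nat.card (GEig W M L p) = Nat.card (genKer (fun i : {ℓ // Pr W L p ℓ} => UU W M p i)) :=
  Nat.card_congr (Equiv.subtypeEquivRight (mem_GEig_iff W M L p))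

theorem mem_Eig_iff (W : WeierstrassCurve ℤ) (M L p : ℕ) [NeZero M] (x : KV Kbar (FN M) p) :
    x ∈ Eig W M L p ↔ ∀ i : {ℓ // Pr W L p ℓ}, UU W M p i x = 0 := by
  constructor
  · intro h i
    exact (UU_eq_zero_iff W M p i x).2 (h i.1 i.2)
  · intro h ℓ hℓ
    exact (UU_eq_zero_iff W M p ℓ x).1 (h ⟨ℓ, hℓ⟩)

theorem UU_comm (W : WeierstrassCurve ℤ) (M p : ℕ) [NeZero M] (hp : p ≠ 0) {ℓ ℓ' : ℕ}
    (hℓ : ℓ.Prime) (hℓ' : ℓ'.Prime) (h : ¬ ℓ ∣ M) (h' : ¬ ℓ' ∣ M) (x : KV Kbar (FN M) p) :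
    UU W M p ℓ (UU W M p ℓ' x) = UU W M p ℓ' (UU W M p ℓ x) := by
  simp only [UU_apply, map_sub, map_zsmul, smul_sub]
  rw [heckeTtot_comm M p hp hℓ hℓ' h h', smul_comm (W.apOfModel ℓ) (W.apOfModel ℓ') x]
  abel

theorem UU_selfadj (W : WeierstrassCurve ℤ) (M : ℕ) [NeZero M] {p : ℕ} (hp : p.Prime) {ℓ : ℕ}
    (hℓ : ℓ.Prime) (hℓM : ¬ ℓ ∣ M) (hℓp : ℓ ≠ p) (x y : KV Kbar (FN M) p) :
    kvPair p hp.ne_zero (UU W M p ℓ x) y = kvPair p hp.ne_zero x (UU W M p ℓ y) := by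
  rw [UU_apply, UU_apply, sub_eq_add_neg, sub_eq_add_neg, kvPair_add_left, kvPair_add_right,
    kvPair_neg_left, kvPair_neg_right, kvPair_zsmul_left, kvPair_zsmul_right,
    heckeTtot_selfadj M hp hℓ hℓM hℓp]

/-- **The orthogonality statement** (export of `Dual/Conc.lean`). -/
def OrthC : Prop :=
  ∀ (p N q' : ℕ) [NeZero N] [NeZero q'] (hp : p.Prime), q'.Prime → ¬ q' ∣ N → q' ≠ p →
    ∀ (x₀ : KV Kbar (FN N) p) (e : ℤ), (e = 1 ∨ e = -1) →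
      heckeTtot N p q' x₀ = (e * (q' + 1)) • x₀ →
      (∀ u, kvPair p hp.ne_zero
        (DR.Hecke.aPull N q' p x₀ + DR.Hecke.bPull N q' p (-e • x₀)) (DR.Hecke.aPull N q' p u) = 1) ∧
      (∀ v, kvPair p hp.ne_zero
        (DR.Hecke.aPull N q' p x₀ + DR.Hecke.bPull N q' p (-e • x₀)) (DR.Hecke.bPull N q' p v) = 1)

theorem Pr.not_dvd_mul {W : WeierstrassCurve ℤ} {L p ℓ : ℕ} (hp : p.Prime) (h : Pr W L p ℓ) :
    ¬ ℓ ∣ L * p := fun hd => (h.1.dvd_mul.1 hd).elim h.2.2.1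
  fun h' => h.2.2.2 ((Nat.prime_dvd_prime_iff_eq h.1 hp).1 h')

/-- **Block DUAL.** -/
theorem dualC_of (horth : OrthC) : DualC := by
  intro W p N q' _ _ hp _ hq' hq'N hq'p hE hI
  obtain ⟨x₀, hx₀, hx₀E, e, he, hT⟩ := hE
  obtain ⟨ho1, ho2⟩ := horth p N q' hp hq' hq'N hq'p x₀ e he hT
  haveI : Finite (KV Kbar (FN N) p) := finite_KV N p hp.ne_zero
  haveI : Finite (KV Kbar (FN (N * q')) p) := finite_KV (N * q') p hp.ne_zero
  unfold Count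
  rw [card_GEig, card_GEig]
  have hN : ∀ i : {ℓ // Pr W (N * q') p ℓ}, ¬ (i : ℕ) ∣ N := fun i h => i.2.2.2.1 (h.mul_right q')
  have h₀ := (mem_Eig_iff W N (N * q') p x₀).1 hx₀E
  refine abs_main (fun i : {ℓ // Pr W (N * q') p ℓ} => UU W N p i)
    (fun i : {ℓ // Pr W (N * q') p ℓ} => UU W (N * q') p i)
    (fun i j x => UU_comm W N p hp.ne_zero i.2.1 j.2.1 (hN i) (hN j) x)
    (fun i j x => UU_comm W (N * q') p hp.ne_zero i.2.1 j.2.1 i.2.2.2.1 j.2.2.2.1 x)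
    (DR.Hecke.aPull N q' p) (DR.Hecke.bPull N q' p) ?_ ?_
    (kvPair p hp.ne_zero) (kvPair_add_left p hp.ne_zero) (kvPair_add_right p hp.ne_zero)
    (kvPair_nondeg p hp)
    (fun i x y => UU_selfadj W (N * q') hp i.2.1 i.2.2.2.1 i.2.2.2.2 x y) ?_
    x₀ (-e • x₀) hx₀ h₀ (fun i => by rw [map_zsmul, h₀ i, smul_zero]) ho1 ho2
  · intro i x
    rw [UU_apply, UU_apply, map_sub, map_zsmul,
      aPull_heckeTtot N q' p hp.ne_zero i.2.1 (Pr.not_dvd_mul hp i.2)]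
  · intro i x
    rw [UU_apply, UU_apply, map_sub, map_zsmul,
      bPull_heckeTtot N q' p hp.ne_zero i.2.1 (Pr.not_dvd_mul hp i.2)]
  · intro x y hx hy h
    exact hI x ((mem_Eig_iff W N (N * q') p x).2 hx) y ((mem_Eig_iff W N (N * q') p y).2 hy) h

end Fermat.Agent.S41.Dual
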